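import Fermat.Agent.GeyerAbelian.Local

/-!
# Every closed abelian subgroup of the Galois group of `ℚ` is procyclic

The place carrying the product of two characters moves the commutative subgroup into a local
Galois group, where all levels above it have index prime to `p`, which the local step forbids.
-/

set_option autoImplicit false
set_option linter.unusedSectionVars false

noncomputable section

namespace Fermat.Agent.GeyerAbelian

open FA.GalCoh Fermat.Agent.Neukirch SolvableOverCyclotomic

/-- There is no pair of independent characters. -/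
theorem Pair.elim {p : ℕ} [Fact p.Prime] (P : Pair p) : False := by
  classical
  obtain ⟨q, _, g, hg⟩ := P.exists_place
  have hD := P.le_decompAt hg
  refine false_of_not_dvd_relIndex (p := p) (V := hloc P.env q g) (B := hloc P.B q g)
    (hloc_mem P.env_mem g) (fun x hx y hy => loc_injective ?_) (hloc_mono le_sup_left q g)
    (fun σ hσ z hz => ?_) fun V' hV' hBV' hle => ?_
  · have h := P.comm _ ((mem_hloc P.B).1 hx) _ ((mem_hloc P.B).1 hy)
    have h2 : g⁻¹ * (loc q x * loc q y) * g = g⁻¹ * (loc q y * loc q x) * g := by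
      simpa [mul_assoc] using h
    rw [map_mul, map_mul]
    exact mul_left_cancel (mul_right_cancel h2)
  · have h1 : loc q σ ∈ fixMu (4 * p) := by
      have := (normal_fixMu (4 * p)).conj_mem _ (P.env_le_fixMu ((mem_hloc P.env).1 hσ)) g
      simpa [mul_assoc] using this
    have hprim : IsPrimitiveRoot (padicEmbedding q (zetaQ p)) p :=
      zetaQ_spec.map_of_injective (padicEmbedding q).injective
    obtain ⟨i, -, rfl⟩ := hprim.eq_pow_of_pow_eq_one hz
    rw [map_pow, ← iota_loc, fixMu_le_of_dvd (dvd_mul_left p 4) h1 _ zetaQ_spec.pow_eq_one]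
  · refine not_dvd_relIndex_of_res_ne_zero (hloc_mem P.env_mem g) hV'
      (locKum ((cycQ p).kumData P.env fun h hh =>
        cycloChar_eq_one (dvd_mul_left p 4) (P.env_le_fixMu hh)) q g) hle
      (z := locH2 P.env q g (mk2 _ (triv P.env p) P.glob)) fun h0 => ?_
    obtain ⟨f, -, hfd⟩ := (mk2_eq_zero ((LL q).sub V') _
      (mapZ2 (compat_inclusion hle) (equi_triv _)
        (mapZ2 (compat_locTo g) (equi_triv _) P.glob))).1 h0
    let F : GQ → ZMod p := fun x =>
      if h : ∃ τ : V', g⁻¹ * loc q (τ : LG q) * g = x then f h.choose else 0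
    have hF : ∀ τ : V', F (g⁻¹ * loc q (τ : LG q) * g) = f τ := fun τ => by
      have h : ∃ τ' : V', g⁻¹ * loc q (τ' : LG q) * g = g⁻¹ * loc q (τ : LG q) * g := ⟨τ, rfl⟩
      simp only [F, dif_pos h]
      exact congrArg f (Subtype.ext (loc_injective (mul_left_cancel
        (mul_right_cancel h.choose_spec))))
    have hlift : ∀ x ∈ P.B, ∃ τ : V', g⁻¹ * loc q (τ : LG q) * g = x := fun x hx => by
      obtain ⟨τ, hτ⟩ := mem_decompAt.1 (hD hx)
      have hxe : g⁻¹ * loc q τ * g = x := by rw [hτ]; group
      exact ⟨⟨τ, hBV' ((mem_hloc P.B).2 (hxe ▸ hx))⟩, hxe⟩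
    refine P.ne_coboundary F fun x hx y hy => ?_
    obtain ⟨τ, rfl⟩ := hlift x hx
    obtain ⟨υ, rfl⟩ := hlift y hy
    rw [show g⁻¹ * loc q (τ : LG q) * g * (g⁻¹ * loc q (υ : LG q) * g) =
      g⁻¹ * loc q ((τ * υ : V') : LG q) * g by rw [Subgroup.coe_mul, map_mul]; group,
      hF, hF, hF]
    exact (congrFun hfd (τ, υ)).symm

end Fermat.Agent.GeyerAbelian
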