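import Fermat.Agent.GeyerAbelian.Procyclic
import Fermat.Agent.Neukirch.Carrier

/-!
# The place carrying the product of two characters

The product of two independent characters of a commutative subgroup is a cocycle which is a
coboundary on no level above it, coboundaries being symmetric there. By the Hasse principle and
compactness one place carries it, and the subgroup lies in that decomposition group.
-/

set_option autoImplicit false
set_option linter.unusedSectionVars false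

noncomputable section

namespace Fermat.Agent.GeyerAbelian

open FA.GalCoh Fermat.Agent.Neukirch SolvableOverCyclotomic

attribute [instance] Pair.normal_M

namespace Pair

variable {p : ℕ} [hp : Fact p.Prime] (P : Pair p)

/-- The subgroup generated by the subgroup and the level. -/
def env : Subgroup GQ := P.B ⊔ P.M

theorem env_mem : P.env ∈ LQ.carrier := by
  obtain ⟨F, hF, hle⟩ := P.mem_M
  exact ⟨F, hF, hle.trans le_sup_right⟩

theorem env_le_fixMu : P.env ≤ fixMu (4 * p) := sup_le P.le_fix P.M_le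

/-- A character extended to all of the group. -/
def ext (c : GQ → ZMod p) (g : GQ) : ZMod p := by
  classical
  exact if h : ∃ x ∈ P.B, x⁻¹ * g ∈ P.M then c h.choose else 0

variable {c : GQ → ZMod p} (hc : ∀ x ∈ P.B, ∀ y ∈ P.B, c (x * y) = c x + c y)
  (hcM : ∀ x ∈ P.B, x ∈ P.M → c x = 0)

include hc hcM in
theorem ext_eq {g x : GQ} (hx : x ∈ P.B) (hg : x⁻¹ * g ∈ P.M) : P.ext c g = c x := by
  classical
  have h : ∃ x ∈ P.B, x⁻¹ * g ∈ P.M := ⟨x, hx, hg⟩
  simp only [ext, dif_pos h]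
  obtain ⟨hy, hyM⟩ := h.choose_spec
  have hd : x⁻¹ * h.choose ∈ P.M := by
    have := mul_mem hg (inv_mem hyM)
    simpa [mul_assoc] using this
  have h1 := hc x hx _ (mul_mem (inv_mem hx) hy)
  rw [mul_inv_cancel_left, hcM _ (mul_mem (inv_mem hx) hy) hd, add_zero] at h1
  exact h1

include hc hcM in
theorem ext_mul {g h : GQ} (hg : g ∈ P.env) (hh : h ∈ P.env) :
    P.ext c (g * h) = P.ext c g + P.ext c h := by
  obtain ⟨x, hx, s, hs, rfl⟩ := Subgroup.mem_sup_of_normal_right.1 hg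
  obtain ⟨y, hy, t, ht, rfl⟩ := Subgroup.mem_sup_of_normal_right.1 hh
  rw [P.ext_eq hc hcM (g := x * s) hx (by rwa [inv_mul_cancel_left]),
    P.ext_eq hc hcM (g := y * t) hy (by rwa [inv_mul_cancel_left]), ← hc x hx y hy]
  refine P.ext_eq hc hcM (mul_mem hx hy) ?_
  have := mul_mem (P.normal_M.conj_mem' s hs y) ht
  simpa [mul_assoc] using this

include hc hcM in
theorem ext_mul_mem (g : GQ) {s : GQ} (hs : s ∈ P.M) : P.ext c (g * s) = P.ext c g := by
  classical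
  by_cases h : ∃ x ∈ P.B, x⁻¹ * g ∈ P.M
  · obtain ⟨x, hx, hg⟩ := h
    rw [P.ext_eq hc hcM hx hg, P.ext_eq hc hcM hx (by rw [← mul_assoc]; exact mul_mem hg hs)]
  · have h' : ¬ ∃ x ∈ P.B, x⁻¹ * (g * s) ∈ P.M := fun ⟨x, hx, hg⟩ => h ⟨x, hx, by
      rw [← mul_assoc] at hg
      exact (Subgroup.mul_mem_cancel_right P.M hs).1 hg⟩
    simp only [ext, dif_neg h, dif_neg h']

/-- The product of the characters. -/
def cochain : GQ × GQ → ZMod p := fun x => P.ext P.a x.1 * P.ext P.b x.2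

theorem cochain_of_mem {x y : GQ} (hx : x ∈ P.B) (hy : y ∈ P.B) :
    P.cochain (x, y) = P.a x * P.b y := by
  show P.ext P.a x * P.ext P.b y = _
  rw [P.ext_eq P.a_mul P.a_M hx (by rw [inv_mul_cancel]; exact one_mem _),
    P.ext_eq P.b_mul P.b_M hy (by rw [inv_mul_cancel]; exact one_mem _)]

theorem cochain_mul_mem {x y s t : GQ} (hs : s ∈ P.M) (ht : t ∈ P.M) :
    P.cochain (x * s, y * t) = P.cochain (x, y) := by
  simp only [cochain, P.ext_mul_mem P.a_mul P.a_M _ hs, P.ext_mul_mem P.b_mul P.b_M _ ht]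

theorem cochain_eq_zero {x y : GQ} (hx : x ∈ P.M) : P.cochain (x, y) = 0 := by
  show P.ext P.a x * _ = 0
  rw [P.ext_eq P.a_mul P.a_M (one_mem _) (by simpa using hx), P.a_M 1 (one_mem _) (one_mem _),
    zero_mul]

/-- No coboundary agrees with the product on the subgroup. -/
theorem ne_coboundary (f : GQ → ZMod p)
    (h : ∀ x ∈ P.B, ∀ y ∈ P.B, P.cochain (x, y) = f y - f (x * y) + f x) : False := by
  have h₁ := h P.x₁ P.hx₁.1 P.x₂ P.hx₂.1
  have h₂ := h P.x₂ P.hx₂.1 P.x₁ P.hx₁.1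
  rw [P.cochain_of_mem P.hx₁.1 P.hx₂.1, P.hx₁.2.1, P.hx₂.2.2, one_mul] at h₁
  rw [P.cochain_of_mem P.hx₂.1 P.hx₁.1, P.hx₂.2.1, zero_mul,
    P.comm P.x₂ P.hx₂.1 P.x₁ P.hx₁.1] at h₂
  exact one_ne_zero (h₁.trans ((show f P.x₂ - f (P.x₁ * P.x₂) + f P.x₁ =
    f P.x₁ - f (P.x₁ * P.x₂) + f P.x₂ by ring).trans h₂.symm))

/-- The class on the levels above. -/
def glob : ↥(Z2 (LQ.sub P.env) (triv P.env p)) :=
  ⟨fun x => P.cochain (x.1.1, x.2.1),
    ⟨P.M.subgroupOf P.env, ⟨P.M, P.mem_M, rfl⟩, fun g g' s s' hs hs' =>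
      P.cochain_mul_mem (Subgroup.mem_subgroupOf.1 hs) (Subgroup.mem_subgroupOf.1 hs')⟩,
    fun g h k => by
      show P.ext P.a (g.1 * h.1) * P.ext P.b k.1 + P.ext P.a g.1 * P.ext P.b h.1 =
        P.ext P.a h.1 * P.ext P.b k.1 + P.ext P.a g.1 * P.ext P.b (h.1 * k.1)
      rw [P.ext_mul P.a_mul P.a_M g.2 h.2, P.ext_mul P.b_mul P.b_M h.2 k.2]
      ring⟩

/-- The class vanishes at a place on a subgroup. -/
def NullAt (H' : Subgroup GQ) (q : ℕ) [Fact q.Prime] (g : GQ) : Prop :=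
  KilledOn (fun x : LG q × LG q =>
    P.cochain (g⁻¹ * loc q x.1 * g, g⁻¹ * loc q x.2 * g)) (hloc H' q g) (LL q)

variable {P}

theorem NullAt.mono {H' H'' : Subgroup GQ} {q : ℕ} [Fact q.Prime] {g : GQ}
    (h : P.NullAt H' q g) (hle : H'' ≤ H') : P.NullAt H'' q g :=
  KilledOn.mono h (hloc_mono hle q g)

theorem NullAt.translate {H' : Subgroup GQ} {q : ℕ} [Fact q.Prime] {g u : GQ}
    (h : P.NullAt H' q g) (hu : u ∈ H') (huM : u ∈ P.M) : P.NullAt H' q (g * u) := by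
  obtain ⟨f, hf, hfd⟩ := h
  have hconj : ∀ τ : LG q, ∃ s ∈ P.M,
      (g * u)⁻¹ * loc q τ * (g * u) = (g⁻¹ * loc q τ * g) * s := fun τ =>
    ⟨(g⁻¹ * loc q τ * g)⁻¹ * u⁻¹ * (g⁻¹ * loc q τ * g) * u,
      mul_mem (P.normal_M.conj_mem' _ (inv_mem huM) _) huM, by group⟩
  have hmem : ∀ τ : LG q, τ ∈ hloc H' q (g * u) → τ ∈ hloc H' q g := fun τ hτ => by
    have h1 := (mem_hloc H').1 hτ
    rw [show (g * u)⁻¹ * loc q τ * (g * u) = u⁻¹ * (g⁻¹ * loc q τ * g) * u by group] at h1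
    exact (mem_hloc H').2 ((Subgroup.mul_mem_cancel_left H' (inv_mem hu)).1
      ((Subgroup.mul_mem_cancel_right H' hu).1 h1))
  refine ⟨f, hf, fun m hm m' hm' => ?_⟩
  rw [← hfd m (hmem m hm) m' (hmem m' hm')]
  obtain ⟨s, hs, es⟩ := hconj m
  obtain ⟨t, ht, et⟩ := hconj m'
  show P.cochain _ = P.cochain _
  rw [es, et]
  exact P.cochain_mul_mem hs ht

variable (P)

/-- An intermediate level. -/
def Between (H' : Subgroup GQ) : Prop := H' ∈ LQ.carrier ∧ P.B ≤ H' ∧ H' ≤ P.env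

theorem exists_common {α : Type*} (t : Finset α) (R : Subgroup GQ → α → Prop)
    (hmono : ∀ a H' H'', R H' a → H'' ≤ H' → R H'' a)
    (h : ∀ a ∈ t, ∃ H', P.Between H' ∧ R H' a) :
    ∃ H', P.Between H' ∧ ∀ a ∈ t, R H' a := by
  induction t using Finset.cons_induction with
  | empty => exact ⟨P.env, ⟨P.env_mem, le_sup_left, le_rfl⟩, by simp⟩
  | cons a t ha ih =>
    obtain ⟨H₁, h₁, hP₁⟩ := ih fun i hi => h i (Finset.mem_cons_of_mem hi)
    obtain ⟨H₂, h₂, hP₂⟩ := h a (Finset.mem_cons_self a t)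
    refine ⟨H₁ ⊓ H₂, ⟨LQ.inf_mem h₁.1 h₂.1, le_inf h₁.2.1 h₂.2.1, inf_le_left.trans h₁.2.2⟩,
      fun i hi => ?_⟩
    rcases Finset.mem_cons.1 hi with rfl | hi
    · exact hmono _ _ _ hP₂ inf_le_right
    · exact hmono _ _ _ (hP₁ i hi) inf_le_left

/-- Outside a finite set of primes the class vanishes everywhere. -/
theorem exists_finset_nullAt :
    ∃ S : Finset Nat.Primes, ∀ q : Nat.Primes, q ∉ S → ∀ g, P.NullAt P.env (q : ℕ) g := by
  obtain ⟨S, hS⟩ := GolodCriterion.exists_finset_inertia_conj_mem P.mem_M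
  refine ⟨S, fun q hq g => ?_⟩
  have := LQ.finiteIndex P.mem_M
  let φ : hloc P.env (q : ℕ) g →* GQ ⧸ P.M :=
    (QuotientGroup.mk' P.M).comp (P.env.subtype.comp (locTo P.env (q : ℕ) g))
  have hout : ∀ s : GQ ⧸ P.M, ∀ v : GQ, (v : GQ ⧸ P.M) = s → ∃ t ∈ P.M, s.out = v * t :=
    fun s v hv => ⟨v⁻¹ * s.out, QuotientGroup.eq.1 (hv.trans (QuotientGroup.out_eq' s).symm),
      (mul_inv_cancel_left v _).symm⟩
  have h1 : ∀ (s t : GQ ⧸ P.M) (v v' : GQ), (v : GQ ⧸ P.M) = s → (v' : GQ ⧸ P.M) = t →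
      P.cochain (s.out, t.out) = P.cochain (v, v') := fun s t v v' hv hv' => by
    obtain ⟨a, ha, ea⟩ := hout s v hv
    obtain ⟨b, hb, eb⟩ := hout t v' hv'
    rw [ea, eb]
    exact P.cochain_mul_mem ha hb
  refine killedOn_of_unr (hloc_mem P.env_mem g) φ ?_ ?_
    (fun s => P.cochain (s.1.out, s.2.out)) ?_ _ fun τ τ' => ?_
  · obtain ⟨_, ⟨N, hN, rfl⟩, hle⟩ := compat_locTo (q := (q : ℕ)) (H := P.env) g _
      (show P.M.subgroupOf P.env ∈ (LQ.sub P.env).carrier from ⟨P.M, P.mem_M, rfl⟩)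
    refine ⟨_, ⟨N, hN, rfl⟩, fun a s hs => ?_⟩
    rw [map_mul, show φ s = 1 from
      (QuotientGroup.eq_one_iff _).2 (Subgroup.mem_subgroupOf.2 hs |> fun h =>
        Subgroup.mem_subgroupOf.1 (hle hs)), mul_one]
  · exact fun τ hτ => (QuotientGroup.eq_one_iff _).2 (hS q hq _ hτ g)
  · rintro a b c ⟨x, rfl⟩ ⟨y, rfl⟩ ⟨w, rfl⟩
    set vx := locTo P.env (q : ℕ) g x
    set vy := locTo P.env (q : ℕ) g y
    set vw := locTo P.env (q : ℕ) g w
    dsimp only
    rw [h1 (φ x * φ y) (φ w) (vx * vy : GQ) vw rfl rfl, h1 (φ x) (φ y) vx vy rfl rfl,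
      h1 (φ y) (φ w) vy vw rfl rfl, h1 (φ x) (φ y * φ w) vx (vy * vw : GQ) rfl rfl]
    exact P.glob.2.2 vx vy vw
  · exact (h1 (φ τ) (φ τ') _ _ rfl rfl).symm

/-- **One place carries the class.** -/
theorem exists_place :
    ∃ (q : ℕ) (_ : Fact q.Prime) (g : GQ), ∀ H', P.Between H' → ¬ P.NullAt H' q g := by
  classical
  by_contra! hall
  obtain ⟨S, hS⟩ := P.exists_finset_nullAt
  have hq : ∀ q : Nat.Primes, ∃ H', P.Between H' ∧ ∀ g, P.NullAt H' (q : ℕ) g := fun q => by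
    have hex : ∀ g, ∃ (H' : Subgroup GQ) (U : Subgroup GQ), P.Between H' ∧
        P.NullAt H' (q : ℕ) g ∧ U ∈ LQ.carrier ∧ U ≤ P.M ⊓ H' := fun g => by
      obtain ⟨H', hH', hn⟩ := hall (q : ℕ) inferInstance g
      obtain ⟨U, hU, hle, -⟩ := LQ.exists_normal (LQ.inf_mem P.mem_M hH'.1)
      exact ⟨H', U, hH', hn, hU, hle⟩
    choose Hg Ug hbg hng hUg hUle using hex
    obtain ⟨t, ht⟩ := isCompact_univ.elim_finite_subcover
      (fun g : GQ => {y | g⁻¹ * y ∈ Ug g}) (fun g => isOpen_setOf_inv_mul_mem g (hUg g))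
      (fun y _ => Set.mem_iUnion.2 ⟨y, by
        show y⁻¹ * y ∈ Ug y
        rw [inv_mul_cancel]
        exact one_mem _⟩)
    obtain ⟨H', hH', hP⟩ := P.exists_common t
      (fun H' g => ∀ y, g⁻¹ * y ∈ Ug g → P.NullAt H' (q : ℕ) y)
      (fun a H₁ H₂ hP hle y hy => (hP y hy).mono hle) fun g _ => ⟨Hg g, hbg g, fun y hy => by
        have h := hUle g hy
        rw [show y = g * (g⁻¹ * y) by group]
        exact (hng g).translate h.2 h.1⟩
    refine ⟨H', hH', fun y => ?_⟩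
    obtain ⟨g, hg, hy⟩ := Set.mem_iUnion₂.1 (ht (Set.mem_univ y))
    exact hP g hg y hy
  obtain ⟨H', hH', hP⟩ := P.exists_common S (fun H' q => ∀ g, P.NullAt H' (q : ℕ) g)
    (fun q H₁ H₂ hP hle g => (hP g).mono hle) fun q _ => hq q
  have hμ : H' ≤ fixMu (4 * p) := hH'.2.2.trans P.env_le_fixMu
  have h0 : res2t (compat_inclusion hH'.2.2) (mk2 _ (triv P.env p) P.glob) = 0 := by
    refine hasse_H2 hH'.1 ((tc_fixMu (dvd_mul_right 4 p)).mono hμ)
      ((cycQ p).kumData H' fun h hh => cycloChar_eq_one (dvd_mul_left p 4) (hμ hh)) ?_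
    intro q hq' g
    have hnull : P.NullAt H' q g := by
      by_cases hmem : (⟨q, hq'.out⟩ : Nat.Primes) ∈ S
      · exact hP _ hmem g
      · exact (hS _ hmem g).mono hH'.2.2
    obtain ⟨f, hf, hfd⟩ := hnull
    refine (mk2_eq_zero ((LL q).sub (hloc H' q g)) _
      (mapZ2 (compat_locTo g) (equi_triv _)
        (mapZ2 (compat_inclusion hH'.2.2) (equi_triv _) P.glob))).2
      ⟨fun τ => f τ, hf.precomp ((LL q).sub_compat _), funext fun x => ?_⟩
    exact (hfd x.1 x.1.2 x.2 x.2.2).symm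
  obtain ⟨f, -, hfd⟩ := (mk2_eq_zero (LQ.sub H') _
    (mapZ2 (compat_inclusion hH'.2.2) (equi_triv _) P.glob)).1 h0
  refine P.ne_coboundary (fun x => if h : x ∈ H' then f ⟨x, h⟩ else 0) fun x hx y hy => ?_
  have hxH := hH'.2.1 hx
  have hyH := hH'.2.1 hy
  simp only [dif_pos hxH, dif_pos hyH, dif_pos (mul_mem hxH hyH)]
  exact (congrFun hfd (⟨x, hxH⟩, ⟨y, hyH⟩)).symm

/-- **The subgroup lies in the decomposition group carrying the class.** -/
theorem le_decompAt {q : ℕ} [Fact q.Prime] {g : GQ}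
    (hg : ∀ H', P.Between H' → ¬ P.NullAt H' q g) : P.B ≤ decompAt q g⁻¹ := by
  intro τ hτ
  obtain ⟨σ, hσB, hσD, hσ1⟩ : ∃ σ ∈ P.B, σ ∈ decompAt q g⁻¹ ∧ σ ≠ 1 := by
    by_contra! hnone
    obtain ⟨U, hU, -, hUB⟩ := exists_level_mul_notMem
      (C := (decompAt q g⁻¹ : Set GQ) ∩ (P.M : Set GQ)ᶜ)
      ((isClosed_decompAt g⁻¹).inter (isOpen_level P.mem_M).isClosed_compl).isCompact
      P.isClosed_B fun x hx hxB => hx.2 (by rw [hnone x hxB hx.1]; exact one_mem P.M)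
    obtain ⟨U', hU', hle, hn⟩ := LQ.exists_normal (LQ.inf_mem hU P.mem_M)
    refine hg (P.B ⊔ U') ⟨?_, le_sup_left, sup_le_sup_left (hle.trans inf_le_right) _⟩
      ⟨fun _ => 0, LC₁.const 0, fun m hm m' _ => ?_⟩
    · obtain ⟨F, hF, hFle⟩ := hU'
      exact ⟨F, hF, hFle.trans le_sup_right⟩
    have hD : g⁻¹ * loc q m * g ∈ decompAt q g⁻¹ := by
      simpa using conj_loc_mem (q := q) g⁻¹ m
    obtain ⟨y, hy, u, hu, he⟩ := Subgroup.mem_sup_of_normal_right.1 ((mem_hloc _).1 hm)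
    have hxM : g⁻¹ * loc q m * g ∈ P.M := by
      by_contra hxM
      refine hUB _ ⟨hD, hxM⟩ _ (inv_mem (hle hu).1) ?_
      rw [← he, mul_inv_cancel_right]
      exact hy
    rw [sub_zero, add_zero]
    exact P.cochain_eq_zero hxM
  exact mem_decompAt_of_commute hσD hσ1 (P.comm τ hτ σ hσB)

end Pair

end Fermat.Agent.GeyerAbelian
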