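import Fermat.Agent.GeyerAbelian.Global
import Fermat.Agent.Neukirch.Restriction

/-!
# No local subgroup of index prime to `p` is commutative

If every level above a commutative subgroup has index prime to `p` in a level fixing the `p`-th
roots of unity, the radicals `q ^ (1 / p ^ n)` generate abelian extensions of the fixed field, so a
bounded power of `q` has all `p`-power roots there, against the discreteness of the valuation.
-/

set_option autoImplicit false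
set_option linter.unusedSectionVars false

noncomputable section

namespace Fermat.Agent.GeyerAbelian

open FA.GalCoh Fermat.Agent.Neukirch SolvableOverCyclotomic

variable {p : ℕ} [hp : Fact p.Prime] {q : ℕ} [hq : Fact q.Prime]

/-- A finite extension of `ℚ_q` contains only finitely many `p`-power roots of unity. -/
theorem exists_moved_root {V : Subgroup (LG q)} (hV : V ∈ (LL q).carrier) :
    ∃ n, ∃ ζ : PadicAlgCl q, ζ ^ p ^ n = 1 ∧ ∃ σ ∈ V, σ ζ ≠ ζ := by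
  by_contra! hall
  set L := IntermediateField.fixedField V
  have : FiniteDimensional ℚ_[q] L := finiteDimensional_fixedField hV
  have : NeZero (p : PadicAlgCl q) := ⟨Nat.cast_ne_zero.2 hp.out.ne_zero⟩
  have hroot : ∀ n, ∃ ζ : PadicAlgCl q, IsPrimitiveRoot ζ (p ^ n) := fun n => by
    have : NeZero ((p ^ n : ℕ) : PadicAlgCl q) :=
      ⟨Nat.cast_ne_zero.2 (pow_ne_zero _ hp.out.ne_zero)⟩
    exact HasEnoughRootsOfUnity.exists_primitiveRoot (PadicAlgCl q) (p ^ n)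
  choose ζ hζ using hroot
  have hnorm : ∀ z : PadicAlgCl q, ∀ k, 0 < k → z ^ k = 1 → ‖z‖ = 1 := fun z k hk h =>
    (pow_eq_one_iff_of_nonneg (norm_nonneg z) hk.ne').1 (by rw [← norm_pow, h, norm_one])
  have hle : ∀ z : PadicAlgCl q, ‖z‖ = 1 → ∀ j : ℕ, ‖z ^ j - 1‖ ≤ ‖z - 1‖ := fun z hz j => by
    induction j with
    | zero => simp
    | succ j ih =>
      rw [show z ^ (j + 1) - 1 = (z ^ j - 1) * z + (z - 1) by ring]
      exact norm_add_le_of_le (by rw [norm_mul, hz, mul_one]; exact ih) le_rfl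
  have hmem : ∀ n, ζ n ∈ {x : PadicAlgCl q | x ∈ L ∧ ‖x - 0‖ ≤ 1} := fun n =>
    ⟨(IntermediateField.mem_fixedField_iff _ _).2 fun σ hσ => hall n _ (hζ n).pow_eq_one σ hσ,
      by rw [sub_zero, hnorm _ _ (pow_pos hp.out.pos n) (hζ n).pow_eq_one]⟩
  obtain ⟨a, -, φ, hφ, hlim⟩ := (isCompact_ballIn L 0 (zero_mem L) 1).tendsto_subseq hmem
  have hζ1 : IsPrimitiveRoot (ζ 1) p := by simpa using hζ 1
  have hε : 0 < ‖ζ 1 - 1‖ := norm_pos_iff.2 (sub_ne_zero.2 (hζ1.ne_one hp.out.one_lt))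
  obtain ⟨N, hN⟩ := Metric.cauchySeq_iff.1 hlim.cauchySeq _ hε
  have hlt := hφ (Nat.lt_succ_self N)
  have hd : ‖ζ (φ (N + 1)) - ζ (φ N)‖ < ‖ζ 1 - 1‖ := by
    rw [← dist_eq_norm]
    exact hN (N + 1) (Nat.le_succ N) N le_rfl
  set n := φ N
  set k := φ (N + 1)
  have hn1 : ζ n ^ p ^ (k - 1) = 1 := by
    rw [show k - 1 = n + (k - 1 - n) by omega, pow_add, pow_mul, (hζ n).pow_eq_one, one_pow]
  have hn0 : ζ n ≠ 0 := (hζ n).ne_zero (pow_ne_zero _ hp.out.ne_zero)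
  set η := ζ k / ζ n
  have hη1 : ‖η‖ = 1 := by
    rw [norm_div, hnorm _ _ (pow_pos hp.out.pos k) (hζ k).pow_eq_one,
      hnorm _ _ (pow_pos hp.out.pos n) (hζ n).pow_eq_one, div_one]
  have hω : IsPrimitiveRoot (η ^ p ^ (k - 1)) p := by
    rw [div_pow, hn1, div_one]
    refine (hζ k).pow (pow_pos hp.out.pos k) ?_
    rw [← pow_succ, Nat.sub_add_cancel (by omega)]
  obtain ⟨j, -, hj⟩ := hω.eq_pow_of_pow_eq_one hζ1.pow_eq_one
  refine absurd hd (not_lt.2 ?_)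
  rw [← hj, ← pow_mul]
  refine (hle η hη1 _).trans (le_of_eq ?_)
  rw [show η - 1 = (ζ k - ζ n) / ζ n by rw [sub_div, div_self hn0],
    norm_div, hnorm _ _ (pow_pos hp.out.pos n) (hζ n).pow_eq_one, div_one]

set_option maxHeartbeats 800000 in
-- nested subgroups of the Galois group are slow to unify
/-- **The local step**: the levels above a commutative subgroup cannot all have index prime to `p`
in a level fixing the `p`-th roots of unity. -/
theorem false_of_not_dvd_relIndex {V B : Subgroup (LG q)} (hV : V ∈ (LL q).carrier)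
    (hB : ∀ x ∈ B, ∀ y ∈ B, x * y = y * x) (hBV : B ≤ V)
    (hμ : ∀ σ ∈ V, ∀ z : PadicAlgCl q, z ^ p = 1 → σ z = z)
    (hidx : ∀ V' ∈ (LL q).carrier, B ≤ V' → V' ≤ V → ¬ p ∣ V'.relIndex V) : False := by
  classical
  set L := IntermediateField.fixedField V
  have : FiniteDimensional ℚ_[q] L := finiteDimensional_fixedField hV
  set d := Module.finrank ℚ_[q] L
  have hd : 0 < d := Module.finrank_pos
  obtain ⟨n₀, ζ₀, hζ₀, σ₀, hσ₀, hmove⟩ := exists_moved_root (p := p) hV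
  obtain ⟨n, hn⟩ : ∃ n, n = n₀ + d + 1 := ⟨_, rfl⟩
  have hpn : 0 < p ^ n := pow_pos hp.out.pos n
  have : NeZero ((p ^ n : ℕ) : PadicAlgCl q) := ⟨Nat.cast_ne_zero.2 hpn.ne'⟩
  have : NeZero (p ^ n) := ⟨hpn.ne'⟩
  obtain ⟨ζ, hζ⟩ := HasEnoughRootsOfUnity.exists_primitiveRoot (PadicAlgCl q) (p ^ n)
  obtain ⟨x, hx⟩ := IsAlgClosed.exists_pow_nat_eq (q : PadicAlgCl q) hpn
  have hx0 : x ≠ 0 := fun h => (q_ne_zero : (q : PadicAlgCl q) ≠ 0) (by
    rw [← hx, h, zero_pow hpn.ne'])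
  have hpowζ : ∀ σ : LG q, ∃ c : ℕ, σ ζ = ζ ^ c := fun σ => by
    obtain ⟨c, -, hc⟩ := hζ.eq_pow_of_pow_eq_one (ξ := σ ζ) (by
      rw [← map_pow, hζ.pow_eq_one, map_one])
    exact ⟨c, hc.symm⟩
  have hpowx : ∀ σ : LG q, ∃ t : ℕ, σ x = ζ ^ t * x := fun σ => by
    obtain ⟨t, -, ht⟩ := hζ.eq_pow_of_pow_eq_one (ξ := σ x / x) (by
      rw [div_pow, ← map_pow, hx, map_natCast, div_self q_ne_zero])
    exact ⟨t, by rw [ht, div_mul_cancel₀ _ hx0]⟩
  have hiter : ∀ (σ : LG q) (c : ℕ), σ ζ = ζ ^ c → ∀ k, (σ ^ k) ζ = ζ ^ c ^ k := fun σ c hc k => by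
    induction k with
    | zero => simp
    | succ k ih =>
      rw [pow_succ σ, AlgEquiv.mul_apply, hc, map_pow, ih, ← pow_mul, ← pow_succ]
  -- the subgroup fixing both
  let W : Subgroup (LG q) := MulAction.stabilizer (LG q) ζ ⊓ MulAction.stabilizer (LG q) x
  have hWmem : ∀ {σ : LG q}, σ ∈ W ↔ σ ζ = ζ ∧ σ x = x := Iff.rfl
  have : W.Normal := ⟨fun w hw g => by
    obtain ⟨c, hc⟩ := hpowζ g⁻¹
    obtain ⟨t, ht⟩ := hpowx g⁻¹
    obtain ⟨h1, h2⟩ := hWmem.1 hw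
    refine hWmem.2 ⟨?_, ?_⟩
    · rw [AlgEquiv.mul_apply, AlgEquiv.mul_apply, hc, map_pow, h1, ← hc]
      exact g.apply_symm_apply ζ
    · rw [AlgEquiv.mul_apply, AlgEquiv.mul_apply, ht, map_mul, map_pow, h1, h2, ← ht]
      exact g.apply_symm_apply x⟩
  have hWl : W ∈ (LL q).carrier := by
    obtain ⟨N₁, hN₁, h₁⟩ := (galAct_fieldLevels (F := ℚ_[q]) (Ω := PadicAlgCl q)).smooth ζ
    obtain ⟨N₂, hN₂, h₂⟩ := (galAct_fieldLevels (F := ℚ_[q]) (Ω := PadicAlgCl q)).smooth x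
    obtain ⟨F, hF, hFle⟩ := (LL q).inf_mem hN₁ hN₂
    exact ⟨F, hF, fun s hs => hWmem.2 ⟨h₁ s (hFle hs).1, h₂ s (hFle hs).2⟩⟩
  have hmod : ∀ σ ∈ V, ∀ c : ℕ, σ ζ = ζ ^ c → (p : ℤ) ∣ (c : ℤ) - 1 := fun σ hσ c hc => by
    have hω : IsPrimitiveRoot (ζ ^ p ^ (n - 1)) p :=
      hζ.pow hpn (by rw [← pow_succ, Nat.sub_add_cancel (by omega)])
    have h1 : (ζ ^ p ^ (n - 1)) ^ c = ζ ^ p ^ (n - 1) := by
      rw [← pow_mul, mul_comm, pow_mul, ← hc, ← map_pow]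
      exact hμ σ hσ _ hω.pow_eq_one
    have h2 : (ζ ^ p ^ (n - 1)) ^ ((c : ℤ) - 1) = 1 := by
      rw [zpow_sub₀ (hω.ne_zero hp.out.ne_zero), zpow_natCast, zpow_one, h1,
        div_self (hω.ne_zero hp.out.ne_zero)]
    exact (hω.zpow_eq_one_iff_dvd _).1 h2
  have hpgroup : ∀ σ ∈ V, σ ^ p ^ (2 * n) ∈ W := fun σ hσ => by
    obtain ⟨c, hc⟩ := hpowζ σ
    set τ := σ ^ p ^ n
    have hτζ : τ ζ = ζ := by
      rw [hiter σ c hc]
      have h := dvd_sub_pow_of_dvd_sub (R := ℤ) (p := p) (a := (c : ℤ)) (b := 1) (hmod σ hσ c hc) n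
      rw [one_pow] at h
      have hd : ((p ^ n : ℕ) : ℤ) ∣ ((c ^ p ^ n : ℕ) : ℤ) - 1 := by
        push_cast
        exact (pow_dvd_pow (p : ℤ) (Nat.le_succ n)).trans h
      have h2 := (hζ.zpow_eq_one_iff_dvd _).2 hd
      rwa [zpow_sub₀ (hζ.ne_zero hpn.ne'), zpow_natCast, zpow_one,
        div_eq_one_iff_eq (hζ.ne_zero hpn.ne')] at h2
    obtain ⟨t, ht⟩ := hpowx τ
    have hk : ∀ k : ℕ, (τ ^ k) ζ = ζ ∧ (τ ^ k) x = ζ ^ (k * t) * x := fun k => by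
      induction k with
      | zero => simp
      | succ k ih =>
        refine ⟨by rw [pow_succ', AlgEquiv.mul_apply, ih.1, hτζ], ?_⟩
        rw [pow_succ', AlgEquiv.mul_apply, ih.2, map_mul, map_pow, hτζ, ht, ← mul_assoc, ← pow_add,
          Nat.succ_mul]
    obtain ⟨h1, h2⟩ := hk (p ^ n)
    rw [two_mul, pow_add, pow_mul]
    refine hWmem.2 ⟨h1, ?_⟩
    rw [h2, pow_mul, hζ.pow_eq_one, one_pow, one_mul]
  -- every element of `V` acts on the roots as one of `B`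
  have hdecomp : ∀ σ ∈ V, ∃ b ∈ B, ∃ w ∈ W, b * w = σ := by
    set V' := B ⊔ W ⊓ V
    have hV' : V' ∈ (LL q).carrier := by
      obtain ⟨F, hF, hFle⟩ := (LL q).inf_mem hWl hV
      exact ⟨F, hF, hFle.trans le_sup_right⟩
    have hV'V : V' ≤ V := sup_le hBV inf_le_right
    let Wv : Subgroup V := W.subgroupOf V
    have : Finite (V ⧸ Wv) := by
      have := (LL q).finiteIndex hWl
      infer_instance
    have hP : IsPGroup p (V ⧸ Wv) := fun a => by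
      obtain ⟨σ, rfl⟩ := QuotientGroup.mk_surjective a
      refine ⟨2 * n, ?_⟩
      rw [← QuotientGroup.mk_pow, QuotientGroup.eq_one_iff, Subgroup.mem_subgroupOf,
        SubmonoidClass.coe_pow]
      exact hpgroup σ.1 σ.2
    have hker : (QuotientGroup.mk' Wv).ker ≤ V'.subgroupOf V := by
      rw [QuotientGroup.ker_mk']
      exact fun s hs => Subgroup.mem_subgroupOf.2
        (Subgroup.mem_sup_right ⟨Subgroup.mem_subgroupOf.1 hs, s.2⟩)
    obtain ⟨k, hk⟩ := hP.index ((V'.subgroupOf V).map (QuotientGroup.mk' Wv))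
    rw [(V'.subgroupOf V).index_map_eq (QuotientGroup.mk'_surjective _) hker] at hk
    have hk0 : k = 0 := by
      by_contra hne
      exact hidx V' hV' le_sup_left hV'V
        (show p ∣ (V'.subgroupOf V).index by rw [hk]; exact dvd_pow_self p hne)
    rw [hk0, pow_zero, Subgroup.index_eq_one, Subgroup.subgroupOf_eq_top] at hk
    intro σ hσ
    have hσ' : σ ∈ B ⊔ W := (sup_le_sup_left inf_le_left B : B ⊔ W ⊓ V ≤ B ⊔ W) (hk hσ)
    exact Subgroup.mem_sup_of_normal_right.1 hσ'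
  have hcomm : ∀ σ ∈ V, ∀ τ ∈ V, σ (τ x) = τ (σ x) := fun σ hσ τ hτ => by
    obtain ⟨b, hb, w, hw, rfl⟩ := hdecomp σ hσ
    obtain ⟨b', hb', w', hw', rfl⟩ := hdecomp τ hτ
    obtain ⟨h1, h2⟩ := hWmem.1 hw
    obtain ⟨h1', h2'⟩ := hWmem.1 hw'
    obtain ⟨t, ht⟩ := hpowx b
    obtain ⟨t', ht'⟩ := hpowx b'
    have hwb : ∀ (w : LG q) (s : ℕ), w ζ = ζ → w x = x → w (ζ ^ s * x) = ζ ^ s * x :=
      fun w s h h' => by rw [map_mul, map_pow, h, h']
    simp only [AlgEquiv.mul_apply, h2, h2']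
    rw [ht, ht', hwb w t' h1 h2, hwb w' t h1' h2', ← ht, ← ht', ← AlgEquiv.mul_apply,
      ← AlgEquiv.mul_apply, hB b hb b' hb']
  -- descent of a power of the radical
  obtain ⟨c, hc⟩ := hpowζ σ₀
  set y := x ^ c / σ₀ x
  have hσx0 : σ₀ x ≠ 0 := (_root_.map_ne_zero σ₀).2 hx0
  have hy : y ∈ L := (IntermediateField.mem_fixedField_iff _ _).2 fun τ hτ => by
    obtain ⟨t, ht⟩ := hpowx τ
    have h1 : σ₀ (ζ ^ t) = (ζ ^ t) ^ c := by rw [map_pow, hc, ← pow_mul, ← pow_mul, mul_comm]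
    rw [map_div₀, map_pow, ← hcomm σ₀ hσ₀ τ hτ, ht, map_mul, h1, mul_pow,
      mul_div_mul_left _ _ (pow_ne_zero _ (pow_ne_zero _ (hζ.ne_zero hpn.ne')))]
  have hy0 : y ≠ 0 := div_ne_zero (pow_ne_zero _ hx0) hσx0
  obtain ⟨r, hr⟩ := norm_pow_finrank L y hy hy0
  have hnq : ‖y‖ ^ p ^ n = (q : ℝ) ^ (1 - (c : ℤ)) := by
    rw [← norm_pow, div_pow, ← pow_mul, mul_comm, pow_mul, hx, ← map_pow, hx, map_natCast,
      norm_div, norm_pow, norm_q, inv_pow, div_inv_eq_mul,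
      zpow_sub₀ (Nat.cast_ne_zero.2 hq.out.ne_zero), zpow_one, zpow_natCast, div_eq_mul_inv,
      mul_comm]
  have heq : r * (p ^ n : ℕ) = (1 - (c : ℤ)) * d := by
    refine zpow_right_injective₀ (a := (q : ℝ)) (Nat.cast_pos.2 hq.out.pos)
      (Nat.one_lt_cast.2 hq.out.one_lt).ne' ?_
    show (q : ℝ) ^ (r * (p ^ n : ℕ)) = (q : ℝ) ^ ((1 - (c : ℤ)) * d)
    rw [zpow_mul, zpow_mul, ← hr, ← hnq, zpow_natCast, zpow_natCast, ← pow_mul, ← pow_mul,
      mul_comm]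
  have hdvd : p ^ n ∣ (1 - (c : ℤ)).natAbs * d := by
    have h := congrArg Int.natAbs heq
    rw [Int.natAbs_mul, Int.natAbs_mul, Int.natAbs_natCast, Int.natAbs_natCast] at h
    exact Dvd.intro_left _ h
  obtain ⟨a, b, ha, hb, hab⟩ := exists_dvd_and_dvd_of_dvd_mul hdvd
  obtain ⟨i, -, rfl⟩ := (Nat.dvd_prime_pow hp.out).1 (Dvd.intro b hab.symm)
  obtain ⟨j, -, rfl⟩ := (Nat.dvd_prime_pow hp.out).1 (Dvd.intro_left _ hab.symm)
  rw [← pow_add] at hab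
  have hij := Nat.pow_right_injective hp.out.two_le hab
  have hj : j < d + 1 := by
    have h1 := Nat.le_of_dvd hd hb
    have h2 := Nat.lt_pow_self hp.out.one_lt (n := j)
    omega
  have hci : ((p ^ n₀ : ℕ) : ℤ) ∣ (c : ℤ) - 1 := by
    rw [Int.natCast_dvd, show ((c : ℤ) - 1).natAbs = (1 - (c : ℤ)).natAbs by omega]
    exact (pow_dvd_pow p (by omega : n₀ ≤ i)).trans ha
  have hω : IsPrimitiveRoot (ζ ^ p ^ (n - n₀)) (p ^ n₀) :=
    hζ.pow hpn (by rw [← pow_add, Nat.sub_add_cancel (by omega)])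
  have : NeZero (p ^ n₀) := ⟨pow_ne_zero _ hp.out.ne_zero⟩
  obtain ⟨e, -, he⟩ := hω.eq_pow_of_pow_eq_one hζ₀
  refine hmove ?_
  have hfix : σ₀ (ζ ^ p ^ (n - n₀)) = ζ ^ p ^ (n - n₀) := by
    have h1 : (ζ ^ p ^ (n - n₀)) ^ ((c : ℤ) - 1) = 1 := (hω.zpow_eq_one_iff_dvd _).2 hci
    rw [zpow_sub₀ (hω.ne_zero (NeZero.ne _)), zpow_natCast, zpow_one,
      div_eq_one_iff_eq (hω.ne_zero (NeZero.ne _))] at h1
    rw [map_pow, hc, ← pow_mul, mul_comm, pow_mul]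
    exact h1
  rw [← he, map_pow, hfix]

end Fermat.Agent.GeyerAbelian
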