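import Fermat.Agent.Neukirch.Topology
import Fermat.Agent.ArtinSchreier.Rat
import Fermat.Agent.SolvableOverCyclotomic.Levels

/-!
# Closed abelian subgroups which are not procyclic

Such a subgroup of the Galois group of `ℚ` is torsion-free, and for some prime `p` its image under
a power map lies below the `4p`-th roots of unity and has two independent characters of order `p`.
-/

set_option autoImplicit false
set_option linter.unusedSectionVars false

noncomputable section

namespace Fermat.Agent.GeyerAbelian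

open FA.GalCoh Fermat.Agent.Neukirch SolvableOverCyclotomic
open scoped Topology

/-- The roots of unity in a finite commutative group of order dividing a product. -/
theorem card_ker_pow_mul_le {Q : Type*} [CommGroup Q] [Finite Q] (a b : ℕ) :
    Nat.card (powMonoidHom (a * b) : Q →* Q).ker ≤
      Nat.card (powMonoidHom a : Q →* Q).ker * Nat.card (powMonoidHom b : Q →* Q).ker := by
  let f : (powMonoidHom (a * b) : Q →* Q).ker →* Q :=
    (powMonoidHom a).comp (Subgroup.subtype _)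
  rw [← f.ker.card_mul_index, Subgroup.index_ker]
  refine Nat.mul_le_mul ?_ ?_
  · exact Nat.card_le_card_of_injective
      (fun x : f.ker => (⟨x.1.1, x.2⟩ : (powMonoidHom a : Q →* Q).ker))
      fun x y h => Subtype.ext (Subtype.ext (Subtype.mk.inj h))
  · refine Subgroup.card_le_of_le ?_
    rintro _ ⟨x, rfl⟩
    show ((x : Q) ^ a) ^ b = 1
    rw [← pow_mul]
    exact x.2

/-- Two coordinates of a space of more than `p` elements over `ZMod p`. -/
theorem exists_coords {p : ℕ} [hp : Fact p.Prime] {V : Type*} [AddCommGroup V] [Finite V]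
    [Module (ZMod p) V] (h : p < Nat.card V) :
    ∃ (a b : V →+ ZMod p) (v₁ v₂ : V), a v₁ = 1 ∧ b v₁ = 0 ∧ a v₂ = 0 ∧ b v₂ = 1 := by
  have : Module.Finite (ZMod p) V := Module.Finite.of_finite
  have hfin : 1 < Module.finrank (ZMod p) V := by
    rw [Module.natCard_eq_pow_finrank (K := ZMod p) (V := V), Nat.card_zmod] at h
    by_contra! hle
    exact absurd h (not_lt.2 ((Nat.pow_le_pow_right hp.out.pos hle).trans (pow_one p).le))
  let bas := Module.finBasis (ZMod p) V
  let i₁ : Fin (Module.finrank (ZMod p) V) := ⟨0, by omega⟩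
  let i₂ : Fin (Module.finrank (ZMod p) V) := ⟨1, hfin⟩
  have hne : i₁ ≠ i₂ := fun e => Nat.zero_ne_one (congrArg Fin.val e)
  exact ⟨(bas.coord i₁).toAddMonoidHom, (bas.coord i₂).toAddMonoidHom, bas i₁, bas i₂,
    by simp, by simp [hne.symm], by simp [hne], by simp⟩

/-- A finite commutative group which is not cyclic has two independent characters of some prime
order. -/
theorem exists_characters {Q : Type*} [CommGroup Q] [Finite Q] (h : ¬ IsCyclic Q) :
    ∃ (p : ℕ) (_ : Fact p.Prime) (a b : Q → ZMod p) (x₁ x₂ : Q),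
      (∀ x y, a (x * y) = a x + a y) ∧ (∀ x y, b (x * y) = b x + b y) ∧
      a x₁ = 1 ∧ b x₁ = 0 ∧ a x₂ = 0 ∧ b x₂ = 1 := by
  classical
  obtain ⟨p, hp, hcard⟩ : ∃ p : ℕ, p.Prime ∧ p < Nat.card (powMonoidHom p : Q →* Q).ker := by
    by_contra! hall
    refine h ?_
    have := Fintype.ofFinite Q
    refine isCyclic_of_card_pow_eq_one_le fun n hn => ?_
    have key : ∀ n : ℕ, 0 < n → Nat.card (powMonoidHom n : Q →* Q).ker ≤ n := by
      intro n
      induction n using induction_on_primes with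
      | zero => exact fun h0 => absurd h0 (lt_irrefl 0)
      | one =>
        intro _
        have hbot : (powMonoidHom 1 : Q →* Q).ker = ⊥ :=
          (Subgroup.eq_bot_iff_forall _).2 fun x hx => by
            simpa [MonoidHom.mem_ker] using hx
        rw [hbot, Subgroup.card_bot]
      | prime_mul p a hp ih =>
        exact fun h0 => (card_ker_pow_mul_le p a).trans
          (Nat.mul_le_mul (hall p hp) (ih (Nat.pos_of_mul_pos_left h0)))
    refine le_trans (le_of_eq ?_) (key n hn)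
    rw [Nat.card_eq_fintype_card]
    exact (Fintype.card_of_subtype _ fun x => by simp [MonoidHom.mem_ker]).symm
  have : Fact p.Prime := ⟨hp⟩
  let R : Subgroup Q := (powMonoidHom p : Q →* Q).range
  have hR : Nat.card (Q ⧸ R) = Nat.card (powMonoidHom p : Q →* Q).ker := by
    have h2 := R.card_mul_index
    rw [Subgroup.index_eq_card] at h2
    have h3 := (powMonoidHom p : Q →* Q).ker.card_mul_index
    rw [Subgroup.index_ker] at h3
    have hpos : 0 < Nat.card R := Nat.card_pos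
    exact Nat.eq_of_mul_eq_mul_left hpos (h2.trans (h3.symm.trans (mul_comm _ _)))
  let mQ : Module (ZMod p) (Additive (Q ⧸ R)) := AddCommGroup.zmodModule fun x => by
    obtain ⟨z, rfl⟩ := Additive.ofMul.surjective x
    obtain ⟨z, rfl⟩ := QuotientGroup.mk_surjective z
    show Additive.ofMul ((z : Q ⧸ R) ^ p) = Additive.ofMul 1
    rw [← QuotientGroup.mk_pow, (QuotientGroup.eq_one_iff (N := R) (z ^ p)).2 ⟨z, rfl⟩]
  have : Finite (Additive (Q ⧸ R)) := inferInstanceAs (Finite (Q ⧸ R))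
  obtain ⟨a, b, v₁, v₂, ha₁, hb₁, ha₂, hb₂⟩ :=
    @exists_coords p _ (Additive (Q ⧸ R)) _ this mQ (hcard.trans_le hR.ge)
  let π : Q → Additive (Q ⧸ R) := fun x => Additive.ofMul (x : Q ⧸ R)
  have hπ : Function.Surjective π := fun x => by
    obtain ⟨z, hz⟩ := QuotientGroup.mk_surjective (Additive.toMul x)
    exact ⟨z, congrArg Additive.ofMul hz⟩
  obtain ⟨x₁, rfl⟩ := hπ v₁
  obtain ⟨x₂, rfl⟩ := hπ v₂
  exact ⟨p, ⟨hp⟩, fun x => a (π x), fun x => b (π x), x₁, x₂,
    fun x y => map_add a (π x) (π y), fun x y => map_add b (π x) (π y), ha₁, hb₁, ha₂, hb₂⟩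

/-- Two independent characters of order `p` on a closed subgroup of `fixMu (4 p)` commutative and
killed on a normal level. -/
structure Pair (p : ℕ) [Fact p.Prime] where
  /-- The subgroup. -/
  B : Subgroup GQ
  isClosed_B : IsClosed (B : Set GQ)
  comm : ∀ x ∈ B, ∀ y ∈ B, x * y = y * x
  le_fix : B ≤ fixMu (4 * p)
  /-- The level. -/
  M : Subgroup GQ
  normal_M : M.Normal
  mem_M : M ∈ LQ.carrier
  M_le : M ≤ fixMu (4 * p)
  /-- The first character. -/
  a : GQ → ZMod p
  /-- The second character. -/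
  b : GQ → ZMod p
  a_mul : ∀ x ∈ B, ∀ y ∈ B, a (x * y) = a x + a y
  b_mul : ∀ x ∈ B, ∀ y ∈ B, b (x * y) = b x + b y
  a_M : ∀ x ∈ B, x ∈ M → a x = 0
  b_M : ∀ x ∈ B, x ∈ M → b x = 0
  /-- The element dual to the first character. -/
  x₁ : GQ
  /-- The element dual to the second character. -/
  x₂ : GQ
  hx₁ : x₁ ∈ B ∧ a x₁ = 1 ∧ b x₁ = 0
  hx₂ : x₂ ∈ B ∧ a x₂ = 0 ∧ b x₂ = 1

/-- The generators modulo all levels give a topological generator. -/
theorem exists_generator {A : Subgroup GQ} (hA : IsClosed (A : Set GQ))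
    (h : ∀ M ∈ LQ.carrier, M.Normal → ∃ σ ∈ A, A ≤ Subgroup.zpowers σ ⊔ M) :
    ∃ σ ∈ A, A = (Subgroup.zpowers σ).topologicalClosure := by
  let Idx := {M : Subgroup GQ // M ∈ LQ.carrier ∧ M.Normal}
  have : Nonempty Idx := ⟨⟨⊤, LQ.top_mem, inferInstance⟩⟩
  let C : Idx → Set GQ := fun M => (A : Set GQ) ∩ {σ | A ≤ Subgroup.zpowers σ ⊔ M.1}
  have hclosed : ∀ M, IsClosed (C M) := fun M => by
    refine hA.inter (isClosed_setOf_of_const M.2.1 fun g s hs => ?_)
    have hsup : Subgroup.zpowers (g * s) ⊔ M.1 = Subgroup.zpowers g ⊔ M.1 := by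
      refine le_antisymm (sup_le (Subgroup.zpowers_le.2 (mul_mem (Subgroup.mem_sup_left
        (Subgroup.mem_zpowers g)) (Subgroup.mem_sup_right hs))) le_sup_right)
        (sup_le (Subgroup.zpowers_le.2 ?_) le_sup_right)
      have h1 : g * s * s⁻¹ ∈ Subgroup.zpowers (g * s) ⊔ M.1 :=
        mul_mem (Subgroup.mem_sup_left (Subgroup.mem_zpowers _))
          (Subgroup.mem_sup_right (inv_mem hs))
      rwa [mul_inv_cancel_right] at h1
    rw [hsup]
  have hdir : Directed (· ⊇ ·) C := fun M M' => by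
    obtain ⟨M'', hM'', hle, hn⟩ := LQ.exists_normal (LQ.inf_mem M.2.1 M'.2.1)
    exact ⟨⟨M'', hM'', hn⟩,
      fun σ hσ => ⟨hσ.1, hσ.2.trans (sup_le_sup_left (hle.trans inf_le_left) _)⟩,
      fun σ hσ => ⟨hσ.1, hσ.2.trans (sup_le_sup_left (hle.trans inf_le_right) _)⟩⟩
  obtain ⟨σ, hσ⟩ := IsCompact.nonempty_iInter_of_directed_nonempty_isCompact_isClosed C hdir
    (fun M => h M.1 M.2.1 M.2.2) (fun M => (hclosed M).isCompact) hclosed
  rw [Set.mem_iInter] at hσ
  have hσA : σ ∈ A := (hσ ⟨⊤, LQ.top_mem, inferInstance⟩).1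
  refine ⟨σ, hσA, le_antisymm (fun x hx => ?_)
    (Subgroup.topologicalClosure_minimal _ (Subgroup.zpowers_le.2 hσA) hA)⟩
  show x ∈ ((Subgroup.zpowers σ).topologicalClosure : Set GQ)
  rw [Subgroup.topologicalClosure_coe, mem_closure_iff_nhds]
  intro U hU
  have hU1 : (x * ·) ⁻¹' U ∈ 𝓝 (1 : GQ) :=
    (continuous_const_mul x).continuousAt.preimage_mem_nhds (by simpa using hU)
  obtain ⟨M, hM, hn, hMU⟩ := exists_normal_level_subset hU1
  obtain ⟨z, hz, m, hm, he⟩ :=
    Subgroup.mem_sup_of_normal_right.1 ((hσ ⟨M, hM, hn⟩).2 hx)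
  refine ⟨z, ?_, hz⟩
  have h2 := hMU (inv_mem hm)
  simp only [Set.mem_preimage, ← he, mul_inv_cancel_right] at h2
  exact h2

/-- **Reduction**: a closed abelian subgroup is procyclic or gives a pair of characters. -/
theorem exists_generator_or_pair {A : Subgroup GQ} (hA : IsClosed (A : Set GQ))
    (hc : ∀ x ∈ A, ∀ y ∈ A, x * y = y * x) :
    (∃ σ ∈ A, A = (Subgroup.zpowers σ).topologicalClosure) ∨
      ∃ (p : ℕ) (_ : Fact p.Prime), Nonempty (Pair p) := by
  classical
  refine or_iff_not_imp_left.2 fun hne => ?_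
  -- torsion-free
  have htf : ∀ x ∈ A, IsOfFinOrder x → x = 1 := fun x hx hfin => by
    by_contra hx1
    obtain ⟨ι, hι⟩ := FA.ArtinSchreier.exists_embedding_of_isOfFinOrder hfin hx1
    refine hne ⟨x, hx, le_antisymm (fun y hy => ?_)
      (Subgroup.topologicalClosure_minimal _ (Subgroup.zpowers_le.2 hx) hA)⟩
    refine Subgroup.le_topologicalClosure _ ?_
    rcases FA.ArtinSchreier.centralizer_conj hι (hc y hy x hx) with rfl | rfl
    · exact one_mem _
    · exact Subgroup.mem_zpowers _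
  obtain ⟨M, hM, hn, hnot⟩ : ∃ M ∈ LQ.carrier, M.Normal ∧
      ∀ σ ∈ A, ¬ A ≤ Subgroup.zpowers σ ⊔ M := by
    by_contra! hall
    exact hne (exists_generator hA hall)
  let _ : CommGroup A :=
    { (inferInstance : Group A) with mul_comm := fun x y => Subtype.ext (hc x x.2 y y.2) }
  have := LQ.finiteIndex hM
  have : (M.subgroupOf A).FiniteIndex := inferInstance
  have hcyc : ¬ IsCyclic (A ⧸ M.subgroupOf A) := fun hcyc => by
    obtain ⟨s, hs⟩ := hcyc.exists_generator
    obtain ⟨s, rfl⟩ := QuotientGroup.mk_surjective s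
    refine hnot s s.2 fun x hx => ?_
    obtain ⟨k, hk⟩ := Subgroup.mem_zpowers_iff.1 (hs ((⟨x, hx⟩ : A) : A ⧸ M.subgroupOf A))
    rw [← QuotientGroup.mk_zpow, QuotientGroup.eq] at hk
    have h1 : ((s : GQ) ^ k)⁻¹ * x ∈ M := by simpa using Subgroup.mem_subgroupOf.1 hk
    have h2 := mul_mem (Subgroup.mem_sup_left (T := M) (Subgroup.zpow_mem_zpowers (s : GQ) k))
      (Subgroup.mem_sup_right h1)
    rwa [mul_inv_cancel_left] at h2
  obtain ⟨p, hp, a, b, y₁, y₂, ha, hb, ha₁, hb₁, ha₂, hb₂⟩ := exists_characters hcyc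
  obtain ⟨y₁, rfl⟩ := QuotientGroup.mk_surjective y₁
  obtain ⟨y₂, rfl⟩ := QuotientGroup.mk_surjective y₂
  refine ⟨p, hp, ?_⟩
  have hpos : 0 < 4 * p := Nat.mul_pos four_pos hp.out.pos
  have := LQ.finiteIndex (fixMu_mem hpos)
  set m := (fixMu (4 * p)).index
  have hm : m ≠ 0 := Subgroup.FiniteIndex.index_ne_zero
  have hinj : ∀ x y : A, x ^ m = y ^ m → x = y := fun x y h => by
    have h1 : (x / y) ^ m = 1 := by rw [div_pow, h, div_self']
    have h2 := htf (x / y : A).1 (x / y : A).2 (isOfFinOrder_iff_pow_eq_one.2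
      ⟨m, Nat.pos_of_ne_zero hm, by simpa using congrArg Subtype.val h1⟩)
    exact div_eq_one.1 (Subtype.ext h2)
  let f : A →* GQ := A.subtype.comp (powMonoidHom m)
  have hf : ∀ x y : A, f x = f y → x = y := fun x y h => hinj x y (Subtype.ext h)
  have hcont : Continuous f := (continuous_subtype_val.pow m).congr fun x => by
    show (x : GQ) ^ m = ((x ^ m : A) : GQ)
    rw [SubmonoidClass.coe_pow]
  have : CompactSpace A := isCompact_iff_compactSpace.1 hA.isCompact
  have hK : IsClosed (f '' ((fun x : A => (x : GQ)) ⁻¹' (M : Set GQ)ᶜ)) :=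
    (((isOpen_level hM).isClosed_compl.preimage continuous_subtype_val).isCompact.image
      hcont).isClosed
  obtain ⟨M', hM', hn', hsub⟩ := exists_normal_level_subset (hK.isOpen_compl.mem_nhds
    (fun ⟨x, hx, hx1⟩ => hx (by
      rw [hf x 1 (hx1.trans f.map_one.symm)]
      exact one_mem M)))
  let lift : (A ⧸ M.subgroupOf A → ZMod p) → GQ → ZMod p := fun c x =>
    if h : ∃ z, f z = x then c (h.choose : A ⧸ M.subgroupOf A) else 0
  have hlift : ∀ c z, lift c (f z) = c (z : A ⧸ M.subgroupOf A) := fun c z => by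
    have h : ∃ z', f z' = f z := ⟨z, rfl⟩
    simp only [lift, dif_pos h]
    rw [hf _ _ h.choose_spec]
  have hlmul : ∀ c : A ⧸ M.subgroupOf A → ZMod p, (∀ x y, c (x * y) = c x + c y) →
      ∀ x ∈ f.range, ∀ y ∈ f.range, lift c (x * y) = lift c x + lift c y := by
    rintro c hc' _ ⟨x, rfl⟩ _ ⟨y, rfl⟩
    rw [← map_mul, hlift, hlift, hlift, ← hc', QuotientGroup.mk_mul]
  have hlM : ∀ c : A ⧸ M.subgroupOf A → ZMod p, (∀ x y, c (x * y) = c x + c y) →
      ∀ x ∈ f.range, x ∈ M' ⊓ fixMu (4 * p) → lift c x = 0 := by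
    rintro c hc' _ ⟨z, rfl⟩ hz
    have hzM : (z : GQ) ∈ M := by_contra fun h => hsub hz.1 ⟨z, h, rfl⟩
    rw [hlift, (QuotientGroup.eq_one_iff z).2 (Subgroup.mem_subgroupOf.2 hzM)]
    have h1 := hc' 1 1
    rw [one_mul] at h1
    exact left_eq_add.1 h1
  exact ⟨{
    B := f.range
    isClosed_B := by rw [MonoidHom.coe_range]; exact (isCompact_range hcont).isClosed
    comm := fun x ⟨z, hz⟩ y ⟨w, hw⟩ => by rw [← hz, ← hw, ← map_mul, ← map_mul, mul_comm]
    le_fix := fun x ⟨z, hz⟩ => by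
      rw [← hz]
      show ((z ^ m : A) : GQ) ∈ _
      rw [SubmonoidClass.coe_pow]
      exact Subgroup.pow_index_mem _ _
    M := M' ⊓ fixMu (4 * p)
    normal_M := inferInstance
    mem_M := LQ.inf_mem hM' (fixMu_mem hpos)
    M_le := inf_le_right
    a := lift a
    b := lift b
    a_mul := hlmul a ha
    b_mul := hlmul b hb
    a_M := hlM a ha
    b_M := hlM b hb
    x₁ := f y₁
    x₂ := f y₂
    hx₁ := ⟨⟨y₁, rfl⟩, (hlift a y₁).trans ha₁, (hlift b y₁).trans hb₁⟩
    hx₂ := ⟨⟨y₂, rfl⟩, (hlift a y₂).trans ha₂, (hlift b y₂).trans hb₂⟩ }⟩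

end Fermat.Agent.GeyerAbelian
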